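import Fermat.Agent.S37.Sq38.ESCore
import Fermat.Agent.S37.H758.Msep
import Fermat.Agent.Lib.RR.H864.FF1Modular
import Fermat.Agent.S18.H9.Res
import Fermat.Agent.S37.H940.PlaceBasic

/-!
# S37 piece [ES], leaf ES-I (squad S37/S38, helper998): `EsAvoid`

Frozen statement (`Fermat/Agent/S37/Sq38/ESCore.lean`):

    EsAvoid N A σ₀ r : ∀ S : Finset (Place k F_k), ∃ P, r (g • P) ∉ S ∧ r (g⁻¹ • P) ∉ S

with `g = arithmeticGalois _ σ₀`.  Proved here for `r = G.r`, `G : GeoRed A N`, `σ₀` a Frobenius at
`A` (only `σ₀ ∈ decomposition group` and `σ₀ ≡ (·)^ℓ` on the residue field are used).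

Proof: the `j̄`-values of the places in `S` form a finite set `bad ⊆ k`; `k` is infinite, so there
is `t ∈ k` with `t ∉ bad`, `t^(ℓ²) ∉ bad`; lift `t` to `c ∈ A`, put `a = σ₀ c` and take a zero `P`
of `j - a`.  Then `j (g⁻¹ P) = c` and `j (g P) = σ₀² c`, whose residues are `t` and `t^(ℓ²)`; by
value compatibility (`vc_fin`) these are the `j̄`-values of `r (g⁻¹ P)`, `r (g P)`.
-/

set_option autoImplicit false
set_option synthInstance.maxHeartbeats 400000

noncomputable section

namespace Fermat.Agent.S37.H998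

open ModularCurve ValuationSubring AlgebraicCurve HahnSeries Fermat.Agent.S37.Core

section Generic

variable {K F : Type*} [Field K] [Field F] [Algebra K F]

/-- values are transported by semilinear automorphisms -/
theorem hasValue_smul (g : SemilinearAut K F) {P : Place K F} {f : F} {b : K}
    (h : HasValue P f b) : HasValue (g • P) (g • f) (SemilinearAut.baseAut g b) := by
  unfold HasValue at h ⊢
  rw [← Fermat.Agent.S37.H940.inMax_iff_mem_nonunits] at h ⊢
  have e : g • f - algebraMap K F (SemilinearAut.baseAut g b) = g • (f - algebraMap K F b) := by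
    rw [smul_sub, SemilinearAut.smul_algebraMap]
  rw [e]
  rcases h with h | h
  · left
    rw [h, smul_zero]
  · right
    rwa [SemilinearAut.ord_smul]

end Generic

section Zero

variable {K F : Type*} [Field K] [Field F] [Algebra K F] [IsAlgClosed K] [CharZero K]

/-- a transcendental function takes every value of the (algebraically closed) constant field -/
theorem exists_place_hasValue (x : F) (hx : Transcendental K x)
    [FiniteDimensional ↥(IntermediateField.adjoin K {x}) F] (a : K) :
    ∃ P : Place K F, HasValue P x a := by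
  have hxa : Transcendental K (x - algebraMap K F a) := by
    apply Fermat.Agent.S24.FF.transcendental_of_not_mem_range
    rintro ⟨b, hb⟩
    apply hx
    have : x = algebraMap K F (b + a) := by
      rw [map_add, hb]; ring
    rw [this]
    exact isAlgebraic_algebraMap _
  haveI : FiniteDimensional ↥(IntermediateField.adjoin K {x - algebraMap K F a}) F :=
    Fermat.Agent.S24.FF.finiteDimensional_adjoin_of_transcendental hx hxa
  obtain ⟨s, hs, hsum⟩ := Fermat.Agent.S24.H864.fundamental_eq (x - algebraMap K F a) hxa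
  have hpos : 0 < Module.finrank ↥(IntermediateField.adjoin K {x - algebraMap K F a}) F :=
    Module.finrank_pos
  have hne : s.Nonempty := by
    by_contra h
    rw [Finset.not_nonempty_iff_eq_empty] at h
    rw [h, Finset.sum_empty] at hsum
    omega
  obtain ⟨P, hP⟩ := hne
  exact ⟨P, Fermat.Agent.S37.H940.inMax_iff_mem_nonunits.mp (Or.inr ((hs P).mp hP))⟩

end Zero

section Main

variable (A : ValuationSubring (AlgebraicClosure ℚ)) (N : ℕ) [NeZero N]

/-- the `j`-function as an integral element -/
def jElt : IntElt A N where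
  y := jqModC A
  mem := by
    rw [coeffMap_jqModC]
    have h := (Fermat.Agent.S24.jF N).2
    have e : (coeffEmb (AlgebraicClosure ℚ) jq : LaurentSeries (AlgebraicClosure ℚ)) =
        jqModC (AlgebraicClosure ℚ) := by
      rw [← jqModC_rat]
      exact coeffMap_jqModC _
    rw [← e]
    exact h
  memk := by
    rw [coeffMap_jqModC]
    exact jqModC_mem_full _ N

theorem jElt_y : (jElt A N).y = jqModC A := rfl

theorem jElt_gen : (jElt A N).gen = Fermat.Agent.S24.jF N := by
  apply Subtype.ext
  show coeffMap A.subtype (jqModC A) = coeffEmb (AlgebraicClosure ℚ) jq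
  rw [coeffMap_jqModC, ← jqModC_rat]
  exact (coeffMap_jqModC _).symm

theorem jElt_isFin : (jElt A N).IsFin := by
  refine ⟨Polynomial.X - Polynomial.C Polynomial.X, Polynomial.monic_X_sub_C _, ?_⟩
  simp [evalSeries, jElt]

theorem smul_jElt_gen (σ : AlgebraicClosure ℚ ≃ₐ[ℚ] AlgebraicClosure ℚ) :
    arithmeticGalois (modularFunctionFieldFull N) σ • (jElt A N).gen = (jElt A N).gen := by
  apply Subtype.ext
  rw [coe_arithmeticGalois_smul]
  show coeffMap _ (coeffMap A.subtype (jqModC A)) = coeffMap A.subtype (jqModC A)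
  rw [coeffMap_jqModC, coeffMap_jqModC]

/-- in an infinite field one can avoid a finite set with `t` and `t ^ n` simultaneously -/
theorem exists_notMem_pow_notMem {k : Type*} [Field k] [Infinite k] (bad : Finset k) (n : ℕ)
    (hn : n ≠ 0) : ∃ t : k, t ∉ bad ∧ t ^ n ∉ bad := by
  classical
  let p : Polynomial k := (∏ v ∈ bad, (Polynomial.X - Polynomial.C v)) *
    ∏ v ∈ bad, (Polynomial.X ^ n - Polynomial.C v)
  have hp : p ≠ 0 := by
    apply mul_ne_zero
    · exact (Polynomial.monic_prod_of_monic _ _ fun v _ => Polynomial.monic_X_sub_C v).ne_zero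
    · exact (Polynomial.monic_prod_of_monic _ _
        fun v _ => Polynomial.monic_X_pow_sub_C v hn).ne_zero
  obtain ⟨t, ht⟩ : ∃ t, p.eval t ≠ 0 := by
    by_contra h
    have h' : ∀ x, p.eval x = 0 := fun x => by_contra fun hx => h ⟨x, hx⟩
    exact hp (Polynomial.funext fun x => by rw [h' x, Polynomial.eval_zero])
  refine ⟨t, fun h1 => ht ?_, fun h2 => ht ?_⟩
  · rw [Polynomial.eval_mul, Polynomial.eval_prod]
    rw [Finset.prod_eq_zero h1 (by simp), zero_mul]
  · rw [Polynomial.eval_mul, Polynomial.eval_prod, Polynomial.eval_prod]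
    rw [Finset.prod_eq_zero (f := fun v => Polynomial.eval t (Polynomial.X ^ n - Polynomial.C v))
      h2 (by simp), mul_zero]

variable {A N}

set_option maxHeartbeats 800000 in
/-- **Leaf ES-I**: the pair `(r ∘ σ₀, r ∘ σ₀⁻¹)` avoids every finite set of places. -/
theorem esAvoid (ℓ : ℕ) [NeZero ℓ] (G : GeoRed A N)
    (σ₀ : AlgebraicClosure ℚ ≃ₐ[ℚ] AlgebraicClosure ℚ) (hσ₀ : A.IsFrobeniusAt σ₀ ℓ) :
    Fermat.Agent.S37.Sq38.EsAvoid N A σ₀ G.r := by
  classical
  intro S
  haveI : IsAlgClosed (IsLocalRing.ResidueField A) := Fermat.Agent.S18.H9.resAlgClosed _ A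
  -- the finite set of `j̄`-values on `S`
  let val : Place (IsLocalRing.ResidueField A)
      (modularFunctionFieldFullC (IsLocalRing.ResidueField A) N) → IsLocalRing.ResidueField A :=
    fun Q => if h : ∃ b, HasValue Q (jElt A N).sp b then h.choose else 0
  have hval : ∀ Q b, HasValue Q (jElt A N).sp b → val Q = b := by
    intro Q b hb
    have hex : ∃ b, HasValue Q (jElt A N).sp b := ⟨b, hb⟩
    show (if h : ∃ b, HasValue Q (jElt A N).sp b then h.choose else 0) = b
    rw [dif_pos hex]
    exact Fermat.Agent.S37.H758.hasValue_unique Q hex.choose_spec hb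
  obtain ⟨t, ht1, ht2⟩ := exists_notMem_pow_notMem (S.image val) (ℓ ^ 2)
    (pow_ne_zero _ (NeZero.ne ℓ))
  obtain ⟨c, hc⟩ := IsLocalRing.residue_surjective (R := A) t
  have hσmem := hσ₀.mem_decompositionSubgroup
  set s : A.decompositionSubgroup ℚ := ⟨σ₀, hσmem⟩ with hs
  have hfrob : ∀ x : A, IsLocalRing.residue A (s • x) = (IsLocalRing.residue A x) ^ ℓ := by
    intro x
    rw [IsLocalRing.ResidueField.residue_smul]
    exact hσ₀.smul_residue_eq _
  have hcoe : ∀ x : A, ((s • x : A) : AlgebraicClosure ℚ) = σ₀ (x : AlgebraicClosure ℚ) :=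
    fun _ => rfl
  -- a zero of `j - σ₀ c`
  have htr : Transcendental (AlgebraicClosure ℚ) (jElt A N).gen := by
    rw [jElt_gen]
    exact Fermat.Agent.Lib.RR.H864.transcendental_jF N
  haveI : FiniteDimensional
      ↥(IntermediateField.adjoin (AlgebraicClosure ℚ) {(jElt A N).gen})
      ↥(modularFunctionFieldBar N) := by
    obtain ⟨x, hx, hfin⟩ := (Fermat.Agent.Lib.RR.H864.ff1_modularFunctionFieldBar N).exists_finite
    exact Fermat.Agent.S24.FF.finiteDimensional_adjoin_of_transcendental hx htr
  obtain ⟨P, hP⟩ := exists_place_hasValue (jElt A N).gen htr ((s • c : A) : AlgebraicClosure ℚ)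
  set g := arithmeticGalois (modularFunctionFieldFull N) σ₀ with hg
  refine ⟨P, ?_, ?_⟩
  · -- `j (g P) = σ₀² c`
    have h1 : HasValue (g • P) (jElt A N).gen ((s • s • c : A) : AlgebraicClosure ℚ) := by
      have := hasValue_smul g hP
      rwa [smul_jElt_gen] at this
    have h2 := G.vc_fin (jElt A N) (jElt_y A N) (jElt A N) (jElt_isFin A N) (g • P)
      (s • s • c) (s • s • c) h1 h1
    rw [hfrob, hfrob, hc, ← pow_mul, ← pow_two] at h2
    intro hmem
    apply ht2
    rw [← hval _ _ h2]
    exact Finset.mem_image_of_mem _ hmem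
  · -- `j (g⁻¹ P) = c`
    have hginv : g⁻¹ = arithmeticGalois (modularFunctionFieldFull N) σ₀⁻¹ :=
      (map_inv _ _).symm
    have h1 : HasValue (g⁻¹ • P) (jElt A N).gen ((c : A) : AlgebraicClosure ℚ) := by
      have := hasValue_smul g⁻¹ hP
      rw [hginv, smul_jElt_gen] at this
      have e : SemilinearAut.baseAut (arithmeticGalois (modularFunctionFieldFull N) σ₀⁻¹)
          ((s • c : A) : AlgebraicClosure ℚ) = (c : AlgebraicClosure ℚ) :=
        σ₀.symm_apply_apply (c : AlgebraicClosure ℚ)
      rw [e] at this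
      rw [hginv]
      exact this
    have h2 := G.vc_fin (jElt A N) (jElt_y A N) (jElt A N) (jElt_isFin A N) (g⁻¹ • P)
      c c h1 h1
    rw [hc] at h2
    intro hmem
    apply ht1
    rw [← hval _ _ h2]
    exact Finset.mem_image_of_mem _ hmem

end Main

end Fermat.Agent.S37.H998
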